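import Fermat.Agent.S51.H643.Doubling

set_option autoImplicit false

namespace Fermat.Agent.S51.H643

section Cert

variable {R : Type*} [CommRing R]

/-- the (reduced) `4`-division polynomial. -/
def pPre4 (b₂ b₄ b₆ b₈ x : R) : R :=
  2 * x ^ 6 + b₂ * x ^ 5 + 5 * b₄ * x ^ 4 + 10 * b₆ * x ^ 3 + 10 * b₈ * x ^ 2
    + (b₂ * b₈ - b₄ * b₆) * x + (b₄ * b₈ - b₆ ^ 2)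

/-- the `5`-division polynomial `ψ₅ = ψ₂⁴ ψ₄' - ψ₃³`. -/
def pH (b₂ b₄ b₆ b₈ x : R) : R :=
  pB6 b₂ b₄ b₆ x ^ 2 * pPre4 b₂ b₄ b₆ b₈ x - pPsi3 b₂ b₄ b₆ b₈ x ^ 3

/-- derivative of `ψ₃`. -/
def pPsi3' (b₂ b₄ b₆ x : R) : R := 12 * x ^ 3 + 3 * b₂ * x ^ 2 + 6 * b₄ * x + 3 * b₆

/-- `ψ₂(x)⁸ · (N(x₂) - x ψ₂²(x₂))` for `x₂ = N(x)/ψ₂²(x)`. -/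
def pG (b₂ b₄ b₆ b₈ x : R) : R :=
  pN b₄ b₆ b₈ x ^ 4 - b₄ * pN b₄ b₆ b₈ x ^ 2 * pB6 b₂ b₄ b₆ x ^ 2
    - 2 * b₆ * pN b₄ b₆ b₈ x * pB6 b₂ b₄ b₆ x ^ 3 - b₈ * pB6 b₂ b₄ b₆ x ^ 4
    - x * pB6 b₂ b₄ b₆ x * (4 * pN b₄ b₆ b₈ x ^ 3 + b₂ * pN b₄ b₆ b₈ x ^ 2 * pB6 b₂ b₄ b₆ x
      + 2 * b₄ * pN b₄ b₆ b₈ x * pB6 b₂ b₄ b₆ x ^ 2 + b₆ * pB6 b₂ b₄ b₆ x ^ 3)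

/-- cofactor for `cert_psi3_H`. -/
def pA16 (b₂ b₄ b₆ x : R) : R :=
  16704*x^11 + 15312*x^10*b₂ + 5280*x^9*b₂^2 + 26400*x^9*b₄ + 816*x^8*b₂^3 + 18144*x^8*b₂*b₄ +
  9936*x^8*b₆ + 48*x^7*b₂^4 + 4224*x^7*b₂^2*b₄ + 6624*x^7*b₂*b₆ + 15264*x^7*b₄^2 +
  336*x^6*b₂^3*b₄ + 1512*x^6*b₂^2*b₆ + 7224*x^6*b₂*b₄^2 + 10080*x^6*b₄*b₆ + 120*x^5*b₂^3*b₆ +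
  888*x^5*b₂^2*b₄^2 + 4752*x^5*b₂*b₄*b₆ + 4176*x^5*b₄^3 + 864*x^5*b₆^2 + 600*x^4*b₂^2*b₄*b₆ +
  1080*x^4*b₂*b₄^3 + 360*x^4*b₂*b₆^2 + 3960*x^4*b₄^2*b₆ + 36*x^3*b₂^2*b₆^2 +
  1128*x^3*b₂*b₄^2*b₆ + 516*x^3*b₄^4 + 576*x^3*b₄*b₆^2 - 3*x^2*b₂^3*b₆^2 + 6*x^2*b₂^2*b₄^2*b₆ -
  3*x^2*b₂*b₄^4 + 216*x^2*b₂*b₄*b₆^2 + 792*x^2*b₄^3*b₆ - 144*x^2*b₆^3 - 6*x*b₂^2*b₄*b₆^2 +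
  12*x*b₂*b₄^3*b₆ - 24*x*b₂*b₆^3 - 6*x*b₄^5 + 360*x*b₄^2*b₆^2 - 3*b₂^2*b₆^3 + 6*b₂*b₄^2*b₆^2 -
  3*b₄^4*b₆ + 48*b₄*b₆^3

set_option maxHeartbeats 1600000 in
lemma cert_psi3_H (b₂ b₄ b₆ b₈ x : R) (hrel : 4 * b₈ = b₂ * b₆ - b₄ ^ 2) :
    16 * (pPsi3' b₂ b₄ b₆ x * pH b₂ b₄ b₆ b₈ x + 3 * pB6 b₂ b₄ b₆ x ^ 5)
      = pA16 b₂ b₄ b₆ x * pPsi3 b₂ b₄ b₆ b₈ x := by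
  simp only [pPsi3', pH, pB6, pPre4, pPsi3, pA16]
  linear_combination
    (2208*x^11 + 1512*x^10*b₂ + 336*x^9*b₂^2 + 2448*x^9*b₄ + 24*x^8*b₂^3 + 1008*x^8*b₂*b₄ + 360*x^8*b₆ + 96*x^7*b₂^2*b₄ - 36*x^7*b₂*b₆ + 612*x^7*b₄^2 - 432*x^7*b₈ - 45*x^6*b₂^2*b₆ + 93*x^6*b₂*b₄^2 - 252*x^6*b₂*b₈ - 720*x^6*b₄*b₆ - 3*x^5*b₂^3*b₆ + 3*x^5*b₂^2*b₄^2 - 36*x^5*b₂^2*b₈ - 342*x^5*b₂*b₄*b₆ + 6*x^5*b₄^3 - 648*x^5*b₄*b₈ - 720*x^5*b₆^2 - 15*x^4*b₂^2*b₄*b₆ + 15*x^4*b₂*b₄^3 - 180*x^4*b₂*b₄*b₈ - 261*x^4*b₂*b₆^2 - 459*x^4*b₄^2*b₆ - 540*x^4*b₆*b₈ - 12*x^3*b₂^2*b₆^2 - 6*x^3*b₂*b₄^2*b₆ - 156*x^3*b₂*b₆*b₈ + 18*x^3*b₄^4 - 204*x^3*b₄^2*b₈ - 576*x^3*b₄*b₆^2 - 48*x^3*b₈^2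 - 3*x^2*b₂^2*b₆*b₈ + 3*x^2*b₂*b₄^2*b₈ - 27*x^2*b₂*b₄*b₆^2 - 12*x^2*b₂*b₈^2 + 27*x^2*b₄^3*b₆ - 324*x^2*b₄*b₆*b₈ - 168*x^2*b₆^3 - 6*x*b₂*b₄*b₆*b₈ - 9*x*b₂*b₆^3 + 6*x*b₄^3*b₈ + 9*x*b₄^2*b₆^2 - 24*x*b₄*b₈^2 - 108*x*b₆^2*b₈ - 3*b₂*b₆^2*b₈ + 3*b₄^2*b₆*b₈ - 12*b₆*b₈^2) * hrel

set_option maxHeartbeats 1600000 in
lemma cert_G (b₂ b₄ b₆ b₈ x : R) (hrel : 4 * b₈ = b₂ * b₆ - b₄ ^ 2) :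
    pG b₂ b₄ b₆ b₈ x = -(pPsi3 b₂ b₄ b₆ b₈ x * pH b₂ b₄ b₆ b₈ x) := by
  simp only [pG, pH, pB6, pN, pPre4, pPsi3]
  linear_combination
    (48*x^12 + 40*x^11*b₂ + 11*x^10*b₂^2 + 96*x^10*b₄ + x^9*b₂^3 + 52*x^9*b₂*b₄ + 72*x^9*b₆ + 7*x^8*b₂^2*b₄ + 38*x^8*b₂*b₆ + 60*x^8*b₄^2 + 16*x^8*b₈ + 5*x^7*b₂^2*b₆ + 16*x^7*b₂*b₄^2 + 8*x^7*b₂*b₈ + 84*x^7*b₄*b₆ + x^6*b₂^2*b₈ + 22*x^6*b₂*b₄*b₆ + 12*x^6*b₄^3 + 16*x^6*b₄*b₈ + 27*x^6*b₆^2 + 4*x^5*b₂*b₄*b₈ + 7*x^5*b₂*b₆^2 + 24*x^5*b₄^2*b₆ + 8*x^5*b₆*b₈ + 2*x^4*b₂*b₆*b₈ + 4*x^4*b₄^2*b₈ + 15*x^4*b₄*b₆^2 + 4*x^3*b₄*b₆*b₈ + 3*x^3*b₆^3 + x^2*b₆^2*b₈) * hrel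

lemma pG_eq (b₂ b₄ b₆ b₈ x₁ x₂ : R) (h : x₂ * pB6 b₂ b₄ b₆ x₁ = pN b₄ b₆ b₈ x₁) :
    pG b₂ b₄ b₆ b₈ x₁ = pB6 b₂ b₄ b₆ x₁ ^ 4 * (pN b₄ b₆ b₈ x₂ - x₁ * pB6 b₂ b₄ b₆ x₂) := by
  unfold pG
  rw [← h]
  generalize pB6 b₂ b₄ b₆ x₁ = t
  simp only [pB6, pN]
  ring

end Cert

end Fermat.Agent.S51.H643
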