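import Mathlib

set_option autoImplicit false

namespace Fermat.Agent.S51.H643

open WeierstrassCurve WeierstrassCurve.Affine

section Polys

variable {R : Type*} [CommRing R]

/-- `ψ₂² = 4x³ + b₂x² + 2b₄x + b₆`. -/
def pB6 (b₂ b₄ b₆ x : R) : R := 4 * x ^ 3 + b₂ * x ^ 2 + 2 * b₄ * x + b₆

/-- numerator of the duplication map on the `x`-line. -/
def pN (b₄ b₆ b₈ x : R) : R := x ^ 4 - b₄ * x ^ 2 - 2 * b₆ * x - b₈

/-- `ψ₃ = 3x⁴ + b₂x³ + 3b₄x² + 3b₆x + b₈`. -/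
def pPsi3 (b₂ b₄ b₆ b₈ x : R) : R := 3 * x ^ 4 + b₂ * x ^ 3 + 3 * b₄ * x ^ 2 + 3 * b₆ * x + b₈

lemma pPsi3_eq (b₂ b₄ b₆ b₈ x : R) :
    pPsi3 b₂ b₄ b₆ b₈ x = x * pB6 b₂ b₄ b₆ x - pN b₄ b₆ b₈ x := by
  simp only [pPsi3, pB6, pN]; ring

/-- `N` and `ψ₂²` have no common zero when `Δ ≠ 0`. -/
lemma cert_N_B6 (b₂ b₄ b₆ b₈ x : R) (hrel : 4 * b₈ = b₂ * b₆ - b₄ ^ 2) :
    (-48 * x ^ 2 - 8 * b₂ * x + b₂ ^ 2 - 32 * b₄) * pN b₄ b₆ b₈ x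
      + (12 * x ^ 3 - b₂ * x ^ 2 - 10 * b₄ * x + b₂ * b₄ - 27 * b₆) * pB6 b₂ b₄ b₆ x
      = -b₂ ^ 2 * b₈ - 8 * b₄ ^ 3 - 27 * b₆ ^ 2 + 9 * b₂ * b₄ * b₆ := by
  simp only [pB6, pN]
  linear_combination (12 * x ^ 2 + 2 * x * b₂ + 8 * b₄) * hrel

end Polys

section Field

variable {F : Type*} [Field F] (E : WeierstrassCurve.Affine F)

lemma sub_negY_sq {x y : F} (h : E.Equation x y) :
    (y - E.negY x y) ^ 2 = pB6 E.b₂ E.b₄ E.b₆ x := by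
  rw [equation_iff] at h
  simp only [negY, pB6, WeierstrassCurve.b₂, WeierstrassCurve.b₄, WeierstrassCurve.b₆]
  linear_combination 4 * h

/-- the `x`-coordinate of a point (`0` at infinity). -/
def xc : E.Point → F
  | .zero => 0
  | .some x _ _ => x

@[simp] lemma xc_some {x y : F} (h : E.Nonsingular x y) : xc E (.some x y h) = x := rfl

lemma xc_neg (P : E.Point) : xc E (-P) = xc E P := by
  cases P <;> rfl

lemma eq_or_eq_neg_of_xc_eq {P Q : E.Point} (hP : P ≠ 0) (hQ : Q ≠ 0)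
    (h : xc E P = xc E Q) : P = Q ∨ P = -Q := by
  rcases P with _ | ⟨x₁, y₁, h₁⟩
  · exact absurd rfl hP
  rcases Q with _ | ⟨x₂, y₂, h₂⟩
  · exact absurd rfl hQ
  exact Point.X_eq_iff.mp h

lemma cert_Δ (x : F) :
    (-48 * x ^ 2 - 8 * E.b₂ * x + E.b₂ ^ 2 - 32 * E.b₄) * pN E.b₄ E.b₆ E.b₈ x
      + (12 * x ^ 3 - E.b₂ * x ^ 2 - 10 * E.b₄ * x + E.b₂ * E.b₄ - 27 * E.b₆) * pB6 E.b₂ E.b₄ E.b₆ x
      = E.Δ := by
  rw [cert_N_B6 _ _ _ _ _ E.b_relation, WeierstrassCurve.Δ]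

lemma pN_ne_zero_of_pB6_eq_zero (hΔ : E.Δ ≠ 0) {x : F} (h : pB6 E.b₂ E.b₄ E.b₆ x = 0) :
    pN E.b₄ E.b₆ E.b₈ x ≠ 0 := by
  intro hN
  apply hΔ
  rw [← cert_Δ E x, h, hN]; ring

lemma pB6_ne_zero_of_pN_eq_zero (hΔ : E.Δ ≠ 0) {x : F} (h : pN E.b₄ E.b₆ E.b₈ x = 0) :
    pB6 E.b₂ E.b₄ E.b₆ x ≠ 0 := fun hB => pN_ne_zero_of_pB6_eq_zero E hΔ hB h

lemma pB6_ne_zero_of_pPsi3_eq_zero (hΔ : E.Δ ≠ 0) {x : F}
    (h : pPsi3 E.b₂ E.b₄ E.b₆ E.b₈ x = 0) : pB6 E.b₂ E.b₄ E.b₆ x ≠ 0 := by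
  intro hB
  apply pN_ne_zero_of_pB6_eq_zero E hΔ hB
  rw [pPsi3_eq, hB] at h
  linear_combination -h

variable [DecidableEq F]

lemma addX_self_mul {x y : F} (h : E.Equation x y) (hy : y ≠ E.negY x y) :
    E.addX x x (E.slope x x y y) * pB6 E.b₂ E.b₄ E.b₆ x = pN E.b₄ E.b₆ E.b₈ x := by
  have hne : y - E.negY x y ≠ 0 := sub_ne_zero.mpr hy
  have hB := sub_negY_sq E h
  have hℓ : E.slope x x y y * (y - E.negY x y) = 3 * x ^ 2 + 2 * E.a₂ * x + E.a₄ - E.a₁ * y := by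
    rw [slope_of_Y_ne rfl hy]
    field_simp
  rw [equation_iff] at h
  rw [← hB]
  generalize E.slope x x y y = ℓ at hℓ ⊢
  simp only [addX, pN, WeierstrassCurve.b₄, WeierstrassCurve.b₆, WeierstrassCurve.b₈, negY] at *
  linear_combination (ℓ * (y - (-y - E.a₁ * x - E.a₃)) + (3 * x ^ 2 + 2 * E.a₂ * x + E.a₄ - E.a₁ * y)
    + E.a₁ * (y - (-y - E.a₁ * x - E.a₃))) * hℓ + (-8 * x - E.a₁ ^ 2 - 4 * E.a₂) * h

/-- a nonzero point with `ψ₂²(x) = 0` is `2`-torsion. -/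
lemma add_self_eq_zero_of_pB6 {P : E.Point} (hP : P ≠ 0)
    (hB : pB6 E.b₂ E.b₄ E.b₆ (xc E P) = 0) : P + P = 0 := by
  rcases P with _ | ⟨x, y, h⟩
  · exact absurd rfl hP
  have h0 : y - E.negY x y = 0 := by
    have := sub_negY_sq E h.1
    rw [xc_some] at hB
    rw [hB] at this
    exact pow_eq_zero_iff (two_ne_zero) |>.mp this
  exact Point.add_self_of_Y_eq (sub_eq_zero.mp h0)

/-- the duplication formula on the `x`-line. -/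
lemma dbl_formula {P : E.Point} (hP : P ≠ 0) (h2 : P + P ≠ 0) :
    pB6 E.b₂ E.b₄ E.b₆ (xc E P) ≠ 0 ∧
      xc E (P + P) * pB6 E.b₂ E.b₄ E.b₆ (xc E P) = pN E.b₄ E.b₆ E.b₈ (xc E P) := by
  rcases P with _ | ⟨x, y, h⟩
  · exact absurd rfl hP
  by_cases hy : y = E.negY x y
  · exact absurd (Point.add_self_of_Y_eq hy) h2
  · refine ⟨?_, ?_⟩
    · rw [xc_some, ← sub_negY_sq E h.1]
      exact pow_ne_zero 2 (sub_ne_zero.mpr hy)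
    · rw [Point.add_self_of_Y_ne hy, xc_some, xc_some]
      exact addX_self_mul E h.1 hy

lemma add_self_ne_zero_of_pB6 {P : E.Point} (hP : P ≠ 0)
    (hB : pB6 E.b₂ E.b₄ E.b₆ (xc E P) ≠ 0) : P + P ≠ 0 := by
  rcases P with _ | ⟨x, y, h⟩
  · exact absurd rfl hP
  have hy : y ≠ E.negY x y := by
    intro hy
    apply hB
    rw [xc_some, ← sub_negY_sq E h.1, sub_eq_zero.mpr hy]; ring
  rw [Point.add_self_of_Y_ne hy]
  exact Point.some_ne_zero _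

end Field

end Fermat.Agent.S51.H643
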