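import Fermat.Agent.S51.H643.Three

set_option autoImplicit false

namespace Fermat.Agent.S51.H643

open WeierstrassCurve WeierstrassCurve.Affine Polynomial

noncomputable section

variable (W : WeierstrassCurve ℤ)

/-- Galois orbit of the pair `(x(P), x(2P))` for a point `P` of order `5` spanning a stable
line. -/
lemma five_fix {P : (EQb W).Point} (hP : P ≠ 0) (h5 : 5 • P = 0) (σ : Qb ≃ₐ[ℚ] Qb) {k : ℕ}
    (hk : σ • P = k • P) :
    (σ (xc (EQb W) P) = xc (EQb W) P ∧ σ (xc (EQb W) (P + P)) = xc (EQb W) (P + P)) ∨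
    (σ (xc (EQb W) P) = xc (EQb W) (P + P) ∧ σ (xc (EQb W) (P + P)) = xc (EQb W) P) := by
  have hne := smul_ne_zero' (W.map (Int.castRingHom ℚ)) σ hP
  have hσ2 : σ • (P + P) = k • P + k • P := by
    rw [← hk]; exact smul_add (A := (EQb W).Point) σ P P
  rw [← xc_smul, ← xc_smul, hσ2, hk, nsmul_mod' 5 h5 k]
  rw [hk, nsmul_mod' 5 h5 k] at hne
  have hlt : k % 5 < 5 := Nat.mod_lt _ (by norm_num)
  generalize k % 5 = j at hne hlt
  have e4 : P + P + (P + P) = -P := by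
    have : (P + P) + (P + P) + P = 0 := by rw [← h5]; abel
    exact eq_neg_of_add_eq_zero_left this
  interval_cases j
  · exact absurd (zero_nsmul _) hne
  · left
    rw [one_nsmul]
    exact ⟨rfl, rfl⟩
  · right
    rw [two_nsmul, e4, xc_neg]
    exact ⟨rfl, rfl⟩
  · right
    have e3 : 3 • P = -(P + P) := by
      have : 3 • P + (P + P) = 0 := by rw [← h5]; abel
      exact eq_neg_of_add_eq_zero_left this
    have e6 : -(P + P) + -(P + P) = P := by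
      have : -(P + P) + -(P + P) = P - 5 • P := by abel
      rw [this, h5, sub_zero]
    rw [e3, e6, xc_neg]
    exact ⟨rfl, rfl⟩
  · left
    have e4' : 4 • P = -P := by
      have : 4 • P + P = 0 := by rw [← h5]; abel
      exact eq_neg_of_add_eq_zero_left this
    have e8 : -P + -P = -(P + P) := by abel
    rw [e4', e8, xc_neg, xc_neg]
    exact ⟨rfl, rfl⟩

/-- **[Five.main]**: if the mod-`5` representation is not irreducible then the duplication map on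
the `x`-line has a `2`-cycle `{x₁, x₂}` in `ℚ̄` with rational symmetric functions. -/
theorem five_main (hΔ : W.Δ ≠ 0) (h : ¬ W.ModRepIsIrreducible 5) :
    ∃ (x₁ x₂ : Qb) (σ₁ σ₂ : ℚ), x₁ ≠ x₂ ∧ x₁ + x₂ = (σ₁ : Qb) ∧ x₁ * x₂ = (σ₂ : Qb) ∧
      4 * x₁ ^ 3 + ((W.b₂ : ℤ) : Qb) * x₁ ^ 2 + 2 * ((W.b₄ : ℤ) : Qb) * x₁ + ((W.b₆ : ℤ) : Qb) ≠ 0 ∧
      4 * x₂ ^ 3 + ((W.b₂ : ℤ) : Qb) * x₂ ^ 2 + 2 * ((W.b₄ : ℤ) : Qb) * x₂ + ((W.b₆ : ℤ) : Qb) ≠ 0 ∧
      x₂ * (4 * x₁ ^ 3 + ((W.b₂ : ℤ) : Qb) * x₁ ^ 2 + 2 * ((W.b₄ : ℤ) : Qb) * x₁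
          + ((W.b₆ : ℤ) : Qb))
        = x₁ ^ 4 - ((W.b₄ : ℤ) : Qb) * x₁ ^ 2 - 2 * ((W.b₆ : ℤ) : Qb) * x₁ - ((W.b₈ : ℤ) : Qb) ∧
      x₁ * (4 * x₂ ^ 3 + ((W.b₂ : ℤ) : Qb) * x₂ ^ 2 + 2 * ((W.b₄ : ℤ) : Qb) * x₂
          + ((W.b₆ : ℤ) : Qb))
        = x₂ ^ 4 - ((W.b₄ : ℤ) : Qb) * x₂ ^ 2 - 2 * ((W.b₆ : ℤ) : Qb) * x₂ - ((W.b₈ : ℤ) : Qb) := by
  have hΔE : (EQb W).Δ ≠ 0 := EQb_Δ_ne_zero W hΔ
  have h2F : (2 : Qb) ≠ 0 := by norm_num
  have h3F : (3 : Qb) ≠ 0 := by norm_num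
  have h5F : (5 : Qb) ≠ 0 := by norm_num
  have : Fact (Nat.Prime 5) := ⟨by norm_num⟩
  obtain ⟨hfin, hle⟩ := torsion_card_le (EQb W) 5 (HPoly (EQb W))
    (HPoly_ne_zero (EQb W) h5F)
    (fun P hP h5 => by rw [eval_HPoly]; exact pH_of_five_nsmul (EQb W) hP h5)
  rw [natDegree_HPoly (EQb W) h5F] at hle
  unfold WeierstrassCurve.ModRepIsIrreducible Affine.Point.GaloisRepIsIrreducible at h
  rw [not_and_or] at h
  rcases h with h | h
  · exfalso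
    apply h
    obtain ⟨P, hP, h5⟩ := exists_five_torsion (EQb W) hΔE h2F h3F h5F
    exact ⟨⟨⟨P, (mem_torsion_iff W 5 P).mpr h5⟩, 0, fun h0 => hP (congrArg Subtype.val h0)⟩⟩
  · push Not at h
    obtain ⟨N, hst, hbot, htop⟩ := h
    obtain ⟨v, hvN, hv0⟩ := Submodule.exists_mem_ne_zero_of_ne_bot hbot
    have hP0 : (v : (EQb W).Point) ≠ 0 := fun h0 => hv0 (Subtype.ext h0)
    have h5 : 5 • (v : (EQb W).Point) = 0 := (mem_torsion_iff W 5 v).mp v.2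
    have hfix : ∀ σ : Qb ≃ₐ[ℚ] Qb,
        (σ (xc (EQb W) v) = xc (EQb W) v ∧
          σ (xc (EQb W) ((v : (EQb W).Point) + v)) = xc (EQb W) ((v : (EQb W).Point) + v)) ∨
        (σ (xc (EQb W) v) = xc (EQb W) ((v : (EQb W).Point) + v) ∧
          σ (xc (EQb W) ((v : (EQb W).Point) + v)) = xc (EQb W) v) := by
      intro σ
      obtain ⟨k, hk⟩ := exists_nsmul_of_proper (p := 5) (lt_of_le_of_lt hle (by norm_num))
        N htop hvN hv0 (hst σ v hvN)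
      have hk' : σ • (v : (EQb W).Point) = k • (v : (EQb W).Point) := by
        have h1 := congrArg Subtype.val hk
        have e1 : ((σ • v : Submodule.torsionBy ℤ (EQb W).Point 5) : (EQb W).Point)
            = σ • (v : (EQb W).Point) := rfl
        rw [e1] at h1
        rw [h1]
        exact Submodule.coe_smul_of_tower k v
      exact five_fix W hP0 h5 σ hk'
    obtain ⟨hne, hB1, hB2, hf1, hf2⟩ := cycle_of_five_nsmul (EQb W) hP0 h5
    obtain ⟨s, hs⟩ := fixed_imp_rat (xc (EQb W) v + xc (EQb W) ((v : (EQb W).Point) + v)) (by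
      intro σ
      rcases hfix σ with ⟨h1, h2⟩ | ⟨h1, h2⟩
      · rw [map_add, h1, h2]
      · rw [map_add, h1, h2, add_comm])
    obtain ⟨m, hm⟩ := fixed_imp_rat (xc (EQb W) v * xc (EQb W) ((v : (EQb W).Point) + v)) (by
      intro σ
      rcases hfix σ with ⟨h1, h2⟩ | ⟨h1, h2⟩
      · rw [map_mul, h1, h2]
      · rw [map_mul, h1, h2, mul_comm])
    rw [EQb_b₂, EQb_b₄, EQb_b₆] at hB1 hB2 hf1 hf2
    rw [EQb_b₈] at hf1 hf2
    unfold pB6 at hB1 hB2 hf1 hf2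
    unfold pN at hf1 hf2
    exact ⟨_, _, s, m, hne, hs.symm, hm.symm, hB1, hB2, hf1, hf2⟩

end

end Fermat.Agent.S51.H643
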