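import Mathlib

set_option autoImplicit false

namespace Fermat.Agent.S51.H643

section Line

variable {p : ℕ} [Fact p.Prime] {V : Type*} [AddCommGroup V] [Module (ZMod p) V]

/-- In a `𝔽_p`-vector space with fewer than `p³` elements, a proper nonzero subspace is a line. -/
lemma exists_nsmul_of_proper [Finite V] (hcard : Nat.card V < p ^ 3)
    (N : Submodule (ZMod p) V) (htop : N ≠ ⊤)
    {v w : V} (hv : v ∈ N) (hv0 : v ≠ 0) (hw : w ∈ N) : ∃ k : ℕ, w = k • v := by
  have hp : p.Prime := Fact.out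
  have : Module.Finite (ZMod p) V := Module.Finite.of_finite
  have h1 : Nat.card V = p ^ Module.finrank (ZMod p) V := by
    rw [Module.natCard_eq_pow_finrank (K := ZMod p), Nat.card_zmod]
  have h2 : Module.finrank (ZMod p) V < 3 := by
    rw [h1] at hcard
    exact (Nat.pow_lt_pow_iff_right hp.one_lt).mp hcard
  have h3 : Module.finrank (ZMod p) N < Module.finrank (ZMod p) V := Submodule.finrank_lt htop
  have h4 : 0 < Module.finrank (ZMod p) N := by
    rw [Module.finrank_pos_iff]
    exact ⟨⟨⟨v, hv⟩, 0, fun h => hv0 (congrArg Subtype.val h)⟩⟩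
  have h5 : Module.finrank (ZMod p) N = 1 := by omega
  have hv' : (⟨v, hv⟩ : N) ≠ 0 := fun h => hv0 (congrArg Subtype.val h)
  obtain ⟨c, hc⟩ := (finrank_eq_one_iff_of_nonzero' (⟨v, hv⟩ : N) hv').mp h5 ⟨w, hw⟩
  refine ⟨c.val, ?_⟩
  have hc' : c • v = w := congrArg Subtype.val hc
  rw [← hc', ← Nat.cast_smul_eq_nsmul (ZMod p) c.val v, ZMod.natCast_zmod_val]

end Line

end Fermat.Agent.S51.H643
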