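import Fermat.Agent.S51.H643.Torsion5
import Fermat.Agent.S51.H643.Line
import Fermat.Prelude.Def_FLTPrelim_GaloisRep
import Fermat.Prelude.Def_FLTPrelim_ModularRep

set_option autoImplicit false

namespace Fermat.Agent.S51.H643

open WeierstrassCurve WeierstrassCurve.Affine Polynomial

noncomputable section

/-- `ℚ̄`. -/
abbrev Qb := AlgebraicClosure ℚ

theorem isAlgebraic_Qb : Algebra.IsAlgebraic ℚ Qb := by
  have h : (DivisionRing.toRatAlgebra : Algebra ℚ Qb) = AlgebraicClosure.instAlgebra ℚ :=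
    Subsingleton.elim _ _
  rw [h]
  exact AlgebraicClosure.isAlgebraic ℚ

theorem isGalois_Qb : IsGalois ℚ Qb := by
  have := isAlgebraic_Qb
  have : IsAlgClosure ℚ Qb := ⟨inferInstance, inferInstance⟩
  infer_instance

/-- (S1) a Galois-fixed element of `ℚ̄` is rational. -/
theorem fixed_imp_rat (x : Qb) (h : ∀ σ : Qb ≃ₐ[ℚ] Qb, σ x = x) : ∃ r : ℚ, (r : Qb) = x := by
  have := isGalois_Qb
  obtain ⟨r, hr⟩ := (InfiniteGalois.mem_range_algebraMap_iff_fixed (k := ℚ) (K := Qb) x).mpr h
  exact ⟨r, by rw [← hr]; simp⟩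

section Card

variable {F : Type*} [Field F] [DecidableEq F] (E : WeierstrassCurve.Affine F)

lemma finite_ncard_of_xc (R : Finset F) (S : Set E.Point)
    (hS : ∀ P ∈ S, P ≠ 0 → xc E P ∈ R) : S.Finite ∧ S.ncard ≤ 2 * R.card + 1 := by
  classical
  let g : F → E.Point := fun x => if h : ∃ P ∈ S, P ≠ 0 ∧ xc E P = x then h.choose else 0
  have hsub : S ⊆ ↑(insert 0 (R.image g ∪ R.image (fun x => -g x))) := by
    intro P hP
    by_cases hP0 : P = 0
    · simp [hP0]
    · have hx := hS P hP hP0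
      have hex : ∃ Q ∈ S, Q ≠ 0 ∧ xc E Q = xc E P := ⟨P, hP, hP0, rfl⟩
      have hg : g (xc E P) = hex.choose := dif_pos hex
      obtain ⟨hQS, hQ0, hQx⟩ := hex.choose_spec
      simp only [Finset.coe_insert, Finset.coe_union, Finset.coe_image, Set.mem_insert_iff,
        Set.mem_union, Set.mem_image, Finset.mem_coe]
      rcases eq_or_eq_neg_of_xc_eq E hP0 hQ0 hQx.symm with h | h
      · right; left; exact ⟨xc E P, hx, by rw [hg, ← h]⟩
      · right; right; exact ⟨xc E P, hx, by rw [hg, ← h]⟩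
  refine ⟨(Finset.finite_toSet _).subset hsub, ?_⟩
  calc S.ncard ≤ (↑(insert 0 (R.image g ∪ R.image (fun x => -g x))) : Set E.Point).ncard :=
        Set.ncard_le_ncard hsub (Finset.finite_toSet _)
    _ = (insert 0 (R.image g ∪ R.image (fun x => -g x))).card := Set.ncard_coe_finset _
    _ ≤ (R.image g ∪ R.image (fun x => -g x)).card + 1 := Finset.card_insert_le _ _
    _ ≤ ((R.image g).card + (R.image (fun x => -g x)).card) + 1 := by
        gcongr; exact Finset.card_union_le _ _
    _ ≤ (R.card + R.card) + 1 := by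
        gcongr <;> exact Finset.card_image_le
    _ = 2 * R.card + 1 := by ring

/-- cardinality bound for the `n`-torsion from a polynomial killing the `x`-coordinates. -/
lemma torsion_card_le (n : ℕ) (q : F[X]) (hq : q ≠ 0)
    (h : ∀ P : E.Point, P ≠ 0 → n • P = 0 → q.eval (xc E P) = 0) :
    Finite (Submodule.torsionBy ℤ E.Point n) ∧
      Nat.card (Submodule.torsionBy ℤ E.Point n) ≤ 2 * q.natDegree + 1 := by
  classical
  have key := finite_ncard_of_xc E q.roots.toFinset
    ((Submodule.torsionBy ℤ E.Point n : Submodule ℤ E.Point) : Set E.Point) (by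
      intro P hP hP0
      have hP' : n • P = 0 := by
        have := (Submodule.mem_torsionBy_iff _ _).mp hP
        rwa [Nat.cast_smul_eq_nsmul] at this
      rw [Multiset.mem_toFinset, mem_roots hq]
      exact h P hP0 hP')
  refine ⟨key.1.to_subtype, ?_⟩
  calc Nat.card (Submodule.torsionBy ℤ E.Point n)
      = ((Submodule.torsionBy ℤ E.Point n : Submodule ℤ E.Point) : Set E.Point).ncard :=
        Nat.card_coe_set_eq _
    _ ≤ 2 * q.roots.toFinset.card + 1 := key.2
    _ ≤ 2 * q.natDegree + 1 := by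
        have h1 : q.roots.toFinset.card ≤ q.roots.card := Multiset.toFinset_card_le _
        have h2 := Polynomial.card_roots' q
        omega

end Card

section Smul

variable (W' : WeierstrassCurve.Affine ℚ)

lemma xc_smul (σ : Qb ≃ₐ[ℚ] Qb) (P : (W'⁄Qb).Point) :
    xc (W'⁄Qb) (σ • P) = σ (xc (W'⁄Qb) P) := by
  rcases P with _ | ⟨x, y, h⟩
  · exact (map_zero σ).symm
  · rfl

lemma smul_ne_zero' (σ : Qb ≃ₐ[ℚ] Qb) {P : (W'⁄Qb).Point} (hP : P ≠ 0) : σ • P ≠ 0 := by
  intro h
  apply hP
  have : σ⁻¹ • (σ • P) = σ⁻¹ • (0 : (W'⁄Qb).Point) := by rw [h]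
  rw [inv_smul_smul] at this
  rw [this]
  exact smul_zero (A := (W'⁄Qb).Point) σ⁻¹

end Smul

end

end Fermat.Agent.S51.H643
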