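import Fermat.Agent.S51.H643.Galois

set_option autoImplicit false

namespace Fermat.Agent.S51.H643

open WeierstrassCurve WeierstrassCurve.Affine Polynomial

noncomputable section

lemma nsmul_mod' {G : Type*} [AddMonoid G] (n : ℕ) {P : G} (h : n • P = 0) (k : ℕ) :
    k • P = (k % n) • P := by
  conv_lhs => rw [← Nat.div_add_mod k n]
  rw [add_nsmul, mul_nsmul, h, smul_zero, zero_add]

variable (W : WeierstrassCurve ℤ)

/-- the curve over `ℚ̄`. -/
abbrev EQb : WeierstrassCurve.Affine Qb := (W.map (Int.castRingHom ℚ))⁄Qb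

lemma EQb_b₂ : (EQb W).b₂ = ((W.b₂ : ℤ) : Qb) := by
  change ((W.map (Int.castRingHom ℚ)).map (algebraMap ℚ Qb)).b₂ = _
  rw [WeierstrassCurve.map_b₂, WeierstrassCurve.map_b₂]
  simp

lemma EQb_b₄ : (EQb W).b₄ = ((W.b₄ : ℤ) : Qb) := by
  change ((W.map (Int.castRingHom ℚ)).map (algebraMap ℚ Qb)).b₄ = _
  rw [WeierstrassCurve.map_b₄, WeierstrassCurve.map_b₄]
  simp

lemma EQb_b₆ : (EQb W).b₆ = ((W.b₆ : ℤ) : Qb) := by
  change ((W.map (Int.castRingHom ℚ)).map (algebraMap ℚ Qb)).b₆ = _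
  rw [WeierstrassCurve.map_b₆, WeierstrassCurve.map_b₆]
  simp

lemma EQb_b₈ : (EQb W).b₈ = ((W.b₈ : ℤ) : Qb) := by
  change ((W.map (Int.castRingHom ℚ)).map (algebraMap ℚ Qb)).b₈ = _
  rw [WeierstrassCurve.map_b₈, WeierstrassCurve.map_b₈]
  simp

lemma EQb_Δ : (EQb W).Δ = ((W.Δ : ℤ) : Qb) := by
  change ((W.map (Int.castRingHom ℚ)).map (algebraMap ℚ Qb)).Δ = _
  rw [WeierstrassCurve.map_Δ, WeierstrassCurve.map_Δ]
  simp

lemma EQb_Δ_ne_zero (hΔ : W.Δ ≠ 0) : (EQb W).Δ ≠ 0 := by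
  rw [EQb_Δ]
  exact_mod_cast hΔ

lemma mem_torsion_iff (n : ℕ) (P : (EQb W).Point) :
    P ∈ Submodule.torsionBy ℤ (EQb W).Point n ↔ n • P = 0 := by
  rw [Submodule.mem_torsionBy_iff, Nat.cast_smul_eq_nsmul]

/-- **[Three.main]**: if the mod-`3` representation is not irreducible then `ψ₃` has a rational
root. -/
theorem three_main (hΔ : W.Δ ≠ 0) (h : ¬ W.ModRepIsIrreducible 3) :
    ∃ x : ℚ, 3 * x ^ 4 + (W.b₂ : ℚ) * x ^ 3 + 3 * (W.b₄ : ℚ) * x ^ 2 + 3 * (W.b₆ : ℚ) * x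
      + (W.b₈ : ℚ) = 0 := by
  have hΔE : (EQb W).Δ ≠ 0 := EQb_Δ_ne_zero W hΔ
  have h3F : (3 : Qb) ≠ 0 := by norm_num
  obtain ⟨hfin, hle⟩ := torsion_card_le (EQb W) 3 (psi3Poly (EQb W))
    (psi3Poly_ne_zero (EQb W) h3F)
    (fun P hP h3 => by rw [eval_psi3Poly]; exact psi3_of_three_nsmul (EQb W) hP h3)
  rw [natDegree_psi3Poly (EQb W) h3F] at hle
  unfold WeierstrassCurve.ModRepIsIrreducible Affine.Point.GaloisRepIsIrreducible at h
  rw [not_and_or] at h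
  rcases h with h | h
  · exfalso
    apply h
    obtain ⟨P, hP, h3⟩ := exists_three_torsion (EQb W) hΔE h3F
    exact ⟨⟨⟨P, (mem_torsion_iff W 3 P).mpr h3⟩, 0, fun h0 => hP (congrArg Subtype.val h0)⟩⟩
  · push Not at h
    obtain ⟨N, hst, hbot, htop⟩ := h
    obtain ⟨v, hvN, hv0⟩ := Submodule.exists_mem_ne_zero_of_ne_bot hbot
    have hP0 : (v : (EQb W).Point) ≠ 0 := fun h0 => hv0 (Subtype.ext h0)
    have h3 : 3 • (v : (EQb W).Point) = 0 := (mem_torsion_iff W 3 v).mp v.2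
    have h2 : (v : (EQb W).Point) + v = -v := by
      have : (v : (EQb W).Point) + v + v = 0 := by rw [← h3]; abel
      exact eq_neg_of_add_eq_zero_left this
    have hfix : ∀ σ : Qb ≃ₐ[ℚ] Qb, σ (xc (EQb W) v) = xc (EQb W) v := by
      intro σ
      obtain ⟨k, hk⟩ := exists_nsmul_of_proper (p := 3) (lt_of_le_of_lt hle (by norm_num))
        N htop hvN hv0 (hst σ v hvN)
      have hk' : σ • (v : (EQb W).Point) = k • (v : (EQb W).Point) := by
        have h1 := congrArg Subtype.val hk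
        have e1 : ((σ • v : Submodule.torsionBy ℤ (EQb W).Point 3) : (EQb W).Point)
            = σ • (v : (EQb W).Point) := rfl
        rw [e1] at h1
        rw [h1]
        exact Submodule.coe_smul_of_tower k v
      have hne := smul_ne_zero' (W.map (Int.castRingHom ℚ)) σ hP0
      rw [← xc_smul, hk', nsmul_mod' 3 h3 k]
      rw [hk', nsmul_mod' 3 h3 k] at hne
      have hlt : k % 3 < 3 := Nat.mod_lt _ (by norm_num)
      generalize k % 3 = j at hne hlt
      interval_cases j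
      · exact absurd (zero_nsmul _) hne
      · rw [one_nsmul]
      · rw [two_nsmul, h2, xc_neg]
    obtain ⟨r, hr⟩ := fixed_imp_rat _ hfix
    refine ⟨r, ?_⟩
    have hψ := psi3_of_three_nsmul (EQb W) hP0 h3
    rw [← hr, EQb_b₂, EQb_b₄, EQb_b₆, EQb_b₈] at hψ
    unfold pPsi3 at hψ
    exact_mod_cast hψ

end

end Fermat.Agent.S51.H643
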