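import Fermat.Agent.S51.H643.Doubling

set_option autoImplicit false

namespace Fermat.Agent.S51.H643

open WeierstrassCurve WeierstrassCurve.Affine Polynomial

section Field

variable {F : Type*} [Field F] (E : WeierstrassCurve.Affine F)

/-- `ψ₃` as a polynomial. -/
noncomputable def psi3Poly : F[X] :=
  C 3 * X ^ 4 + C E.b₂ * X ^ 3 + C (3 * E.b₄) * X ^ 2 + C (3 * E.b₆) * X + C E.b₈

lemma eval_psi3Poly (x : F) : (psi3Poly E).eval x = pPsi3 E.b₂ E.b₄ E.b₆ E.b₈ x := by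
  simp only [psi3Poly, pPsi3, eval_add, eval_mul, eval_C, eval_pow, eval_X] <;> ring

lemma natDegree_psi3Poly (h3 : (3 : F) ≠ 0) : (psi3Poly E).natDegree = 4 := by
  unfold psi3Poly
  compute_degree!

lemma psi3Poly_ne_zero (h3 : (3 : F) ≠ 0) : psi3Poly E ≠ 0 := by
  intro h
  have := natDegree_psi3Poly E h3
  rw [h] at this
  simp at this

omit E in
lemma degree_ne_zero_of_natDegree {p : F[X]} {n : ℕ} (h : p.natDegree = n) (hn : n ≠ 0) :
    p.degree ≠ 0 := by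
  intro h0
  have h1 : p.natDegree = 0 := natDegree_eq_of_degree_eq_some (n := 0) (by simpa using h0)
  omega

lemma exists_equation [IsAlgClosed F] (x : F) : ∃ y, E.Equation x y := by
  have hdeg : (X ^ 2 + C (E.a₁ * x + E.a₃) * X
      - C (x ^ 3 + E.a₂ * x ^ 2 + E.a₄ * x + E.a₆) : F[X]).natDegree = 2 := by
    compute_degree!
  obtain ⟨y, hy⟩ := IsAlgClosed.exists_root (k := F) (X ^ 2 + C (E.a₁ * x + E.a₃) * X
      - C (x ^ 3 + E.a₂ * x ^ 2 + E.a₄ * x + E.a₆) : F[X])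
      (degree_ne_zero_of_natDegree hdeg (by norm_num))
  refine ⟨y, ?_⟩
  rw [equation_iff]
  simp only [IsRoot, eval_add, eval_sub, eval_mul, eval_C, eval_pow, eval_X] at hy
  linear_combination hy

variable [DecidableEq F]

lemma exists_point_of_x [IsAlgClosed F] (hΔ : E.Δ ≠ 0) (x : F) :
    ∃ P : E.Point, P ≠ 0 ∧ xc E P = x := by
  obtain ⟨y, hy⟩ := exists_equation E x
  exact ⟨.some x y ((equation_iff_nonsingular_of_Δ_ne_zero hΔ).mp hy), Point.some_ne_zero _, rfl⟩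

lemma psi3_of_three_nsmul {P : E.Point} (hP : P ≠ 0) (h3 : 3 • P = 0) :
    pPsi3 E.b₂ E.b₄ E.b₆ E.b₈ (xc E P) = 0 := by
  have h2 : P + P = -P := by
    have : P + P + P = 0 := by rw [← h3]; abel
    exact eq_neg_of_add_eq_zero_left this
  have h2ne : P + P ≠ 0 := by rw [h2]; exact neg_ne_zero.mpr hP
  obtain ⟨hB, hf⟩ := dbl_formula E hP h2ne
  rw [h2, xc_neg] at hf
  rw [pPsi3_eq]; linear_combination hf

lemma three_nsmul_of_psi3 (hΔ : E.Δ ≠ 0) {P : E.Point} (hP : P ≠ 0)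
    (h : pPsi3 E.b₂ E.b₄ E.b₆ E.b₈ (xc E P) = 0) : 3 • P = 0 := by
  have hB := pB6_ne_zero_of_pPsi3_eq_zero E hΔ h
  have h2ne := add_self_ne_zero_of_pB6 E hP hB
  obtain ⟨-, hf⟩ := dbl_formula E hP h2ne
  have hx : xc E (P + P) = xc E P := by
    rw [pPsi3_eq] at h
    have : (xc E (P + P) - xc E P) * pB6 E.b₂ E.b₄ E.b₆ (xc E P) = 0 := by
      linear_combination hf - h
    rcases mul_eq_zero.mp this with h1 | h1
    · exact sub_eq_zero.mp h1
    · exact absurd h1 hB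
  rcases eq_or_eq_neg_of_xc_eq E h2ne hP hx with h1 | h1
  · exfalso; apply hP
    have : P + P = P + 0 := by rw [add_zero]; exact h1
    exact add_left_cancel this
  · have : P + P + P = 0 := by rw [h1]; abel
    rw [← this]; abel

lemma exists_three_torsion [IsAlgClosed F] (hΔ : E.Δ ≠ 0) (h3 : (3 : F) ≠ 0) :
    ∃ P : E.Point, P ≠ 0 ∧ 3 • P = 0 := by
  obtain ⟨x, hx⟩ := IsAlgClosed.exists_root (k := F) (psi3Poly E)
      (degree_ne_zero_of_natDegree (natDegree_psi3Poly E h3) (by norm_num))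
  rw [IsRoot, eval_psi3Poly] at hx
  obtain ⟨P, hP, rfl⟩ := exists_point_of_x E hΔ x
  exact ⟨P, hP, three_nsmul_of_psi3 E hΔ hP hx⟩

end Field

end Fermat.Agent.S51.H643
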