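import Fermat.Agent.S51.H643.Torsion
import Fermat.Agent.S51.H643.Cert

set_option autoImplicit false

namespace Fermat.Agent.S51.H643

open WeierstrassCurve WeierstrassCurve.Affine Polynomial

section Field

variable {F : Type*} [Field F] (E : WeierstrassCurve.Affine F)

/-- `ψ₅` as a polynomial. -/
noncomputable def HPoly : F[X] :=
  (C 4 * X ^ 3 + C E.b₂ * X ^ 2 + C (2 * E.b₄) * X + C E.b₆) ^ 2 *
    (C 2 * X ^ 6 + C E.b₂ * X ^ 5 + C (5 * E.b₄) * X ^ 4 + C (10 * E.b₆) * X ^ 3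
      + C (10 * E.b₈) * X ^ 2 + C (E.b₂ * E.b₈ - E.b₄ * E.b₆) * X + C (E.b₄ * E.b₈ - E.b₆ ^ 2))
    - (C 3 * X ^ 4 + C E.b₂ * X ^ 3 + C (3 * E.b₄) * X ^ 2 + C (3 * E.b₆) * X + C E.b₈) ^ 3

lemma eval_HPoly (x : F) : (HPoly E).eval x = pH E.b₂ E.b₄ E.b₆ E.b₈ x := by
  simp only [HPoly, pH, pB6, pPre4, pPsi3, eval_add, eval_sub, eval_mul, eval_C, eval_pow, eval_X]

lemma natDegree_HPoly (h5 : (5 : F) ≠ 0) : (HPoly E).natDegree = 12 := by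
  unfold HPoly
  compute_degree!

lemma HPoly_ne_zero (h5 : (5 : F) ≠ 0) : HPoly E ≠ 0 := by
  intro h
  have := natDegree_HPoly E h5
  rw [h] at this
  simp at this

/-- a root of `ψ₅` is not a root of `ψ₃`. -/
lemma pPsi3_ne_zero_of_pH (hΔ : E.Δ ≠ 0) (h2 : (2 : F) ≠ 0) (h3 : (3 : F) ≠ 0) {x : F}
    (hH : pH E.b₂ E.b₄ E.b₆ E.b₈ x = 0) : pPsi3 E.b₂ E.b₄ E.b₆ E.b₈ x ≠ 0 := by
  intro h
  have hB := pB6_ne_zero_of_pPsi3_eq_zero E hΔ h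
  have hc := cert_psi3_H E.b₂ E.b₄ E.b₆ E.b₈ x E.b_relation
  rw [hH, h] at hc
  have h48 : (48 : F) ≠ 0 := by
    have : (48 : F) = 2 ^ 4 * 3 := by norm_num
    rw [this]
    exact mul_ne_zero (pow_ne_zero 4 h2) h3
  have : (48 : F) * pB6 E.b₂ E.b₄ E.b₆ x ^ 5 = 0 := by linear_combination hc
  rcases mul_eq_zero.mp this with h1 | h1
  · exact h48 h1
  · exact hB (pow_eq_zero_iff (by norm_num) |>.mp h1)

lemma pG_eq_zero_of_pH {x : F} (hH : pH E.b₂ E.b₄ E.b₆ E.b₈ x = 0) :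
    pG E.b₂ E.b₄ E.b₆ E.b₈ x = 0 := by
  rw [cert_G _ _ _ _ _ E.b_relation, hH]; ring

lemma pB6_ne_zero_of_pG (hΔ : E.Δ ≠ 0) {x : F} (hG : pG E.b₂ E.b₄ E.b₆ E.b₈ x = 0) :
    pB6 E.b₂ E.b₄ E.b₆ x ≠ 0 := by
  intro hB
  apply pN_ne_zero_of_pB6_eq_zero E hΔ hB
  unfold pG at hG
  rw [hB] at hG
  have : pN E.b₄ E.b₆ E.b₈ x ^ 4 = 0 := by linear_combination hG
  exact pow_eq_zero_iff (by norm_num) |>.mp this

/-- the algebraic `2`-cycle attached to a root of `ψ₅`. -/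
lemma cycle_of_pH (hΔ : E.Δ ≠ 0) (h2 : (2 : F) ≠ 0) (h3 : (3 : F) ≠ 0) {x₁ : F}
    (hH : pH E.b₂ E.b₄ E.b₆ E.b₈ x₁ = 0) :
    ∃ x₂ : F, x₁ ≠ x₂ ∧ pB6 E.b₂ E.b₄ E.b₆ x₁ ≠ 0 ∧ pB6 E.b₂ E.b₄ E.b₆ x₂ ≠ 0 ∧
      x₂ * pB6 E.b₂ E.b₄ E.b₆ x₁ = pN E.b₄ E.b₆ E.b₈ x₁ ∧
      x₁ * pB6 E.b₂ E.b₄ E.b₆ x₂ = pN E.b₄ E.b₆ E.b₈ x₂ := by
  have hG := pG_eq_zero_of_pH E hH
  have hB1 := pB6_ne_zero_of_pG E hΔ hG
  have hψ := pPsi3_ne_zero_of_pH E hΔ h2 h3 hH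
  set x₂ : F := pN E.b₄ E.b₆ E.b₈ x₁ / pB6 E.b₂ E.b₄ E.b₆ x₁ with hx₂
  have h12 : x₂ * pB6 E.b₂ E.b₄ E.b₆ x₁ = pN E.b₄ E.b₆ E.b₈ x₁ := by
    rw [hx₂]; field_simp
  have h21 : x₁ * pB6 E.b₂ E.b₄ E.b₆ x₂ = pN E.b₄ E.b₆ E.b₈ x₂ := by
    have := pG_eq E.b₂ E.b₄ E.b₆ E.b₈ x₁ x₂ h12
    rw [hG] at this
    rcases mul_eq_zero.mp this.symm with h1 | h1
    · exact absurd (pow_eq_zero_iff (by norm_num) |>.mp h1) hB1
    · linear_combination -h1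
  refine ⟨x₂, ?_, hB1, ?_, h12, h21⟩
  · intro h
    apply hψ
    rw [pPsi3_eq]
    rw [← h] at h12
    linear_combination h12
  · intro hB
    apply pN_ne_zero_of_pB6_eq_zero E hΔ hB
    rw [← h21, hB]; ring

variable [DecidableEq F]

/-- a nonzero `5`-torsion point gives a `2`-cycle of the duplication map. -/
lemma cycle_of_five_nsmul {P : E.Point} (hP : P ≠ 0) (h5 : 5 • P = 0) :
    xc E P ≠ xc E (P + P) ∧ pB6 E.b₂ E.b₄ E.b₆ (xc E P) ≠ 0 ∧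
      pB6 E.b₂ E.b₄ E.b₆ (xc E (P + P)) ≠ 0 ∧
      xc E (P + P) * pB6 E.b₂ E.b₄ E.b₆ (xc E P) = pN E.b₄ E.b₆ E.b₈ (xc E P) ∧
      xc E P * pB6 E.b₂ E.b₄ E.b₆ (xc E (P + P)) = pN E.b₄ E.b₆ E.b₈ (xc E (P + P)) := by
  have h4 : (P + P) + (P + P) = -P := by
    have : (P + P) + (P + P) + P = 0 := by rw [← h5]; abel
    exact eq_neg_of_add_eq_zero_left this
  have h2ne : P + P ≠ 0 := by
    intro h
    rw [h, add_zero] at h4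
    exact hP (neg_eq_zero.mp h4.symm)
  have h4ne : (P + P) + (P + P) ≠ 0 := by rw [h4]; exact neg_ne_zero.mpr hP
  obtain ⟨hB1, hf1⟩ := dbl_formula E hP h2ne
  obtain ⟨hB2, hf2⟩ := dbl_formula E h2ne h4ne
  rw [h4, xc_neg] at hf2
  refine ⟨?_, hB1, hB2, hf1, hf2⟩
  intro hx
  rcases eq_or_eq_neg_of_xc_eq E hP h2ne hx with h1 | h1
  · -- P = P + P
    apply hP
    have : P + 0 = P + P := by rw [add_zero]; exact h1
    exact (add_left_cancel this).symm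
  · -- P = -(P + P), so 3P = 0, so P = 0
    have h3 : P + P + P = 0 := by
      nth_rewrite 3 [h1]
      abel
    apply hP
    have : P = (P + P + P) + (P + P + P) - 5 • P := by abel
    rw [this, h3, h5]; abel

lemma pH_of_five_nsmul {P : E.Point} (hP : P ≠ 0) (h5 : 5 • P = 0) :
    pH E.b₂ E.b₄ E.b₆ E.b₈ (xc E P) = 0 := by
  obtain ⟨hne, hB1, hB2, hf1, hf2⟩ := cycle_of_five_nsmul E hP h5
  have hG : pG E.b₂ E.b₄ E.b₆ E.b₈ (xc E P) = 0 := by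
    rw [pG_eq _ _ _ _ _ _ hf1, hf2]; ring
  rw [cert_G _ _ _ _ _ E.b_relation] at hG
  have hψ : pPsi3 E.b₂ E.b₄ E.b₆ E.b₈ (xc E P) ≠ 0 := by
    rw [pPsi3_eq, ← hf1, ← sub_mul]
    exact mul_ne_zero (sub_ne_zero.mpr hne) hB1
  rcases mul_eq_zero.mp (neg_eq_zero.mp hG) with h | h
  · exact absurd h hψ
  · exact h

lemma five_nsmul_of_pH (hΔ : E.Δ ≠ 0) (h2 : (2 : F) ≠ 0) (h3 : (3 : F) ≠ 0)
    {P : E.Point} (hP : P ≠ 0) (hH : pH E.b₂ E.b₄ E.b₆ E.b₈ (xc E P) = 0) : 5 • P = 0 := by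
  obtain ⟨x₂, hne, hB1, hB2, h12, h21⟩ := cycle_of_pH E hΔ h2 h3 hH
  have h2ne := add_self_ne_zero_of_pB6 E hP hB1
  obtain ⟨-, hf1⟩ := dbl_formula E hP h2ne
  have hx2 : xc E (P + P) = x₂ := by
    have : (xc E (P + P) - x₂) * pB6 E.b₂ E.b₄ E.b₆ (xc E P) = 0 := by
      linear_combination hf1 - h12
    rcases mul_eq_zero.mp this with h | h
    · exact sub_eq_zero.mp h
    · exact absurd h hB1
  rw [← hx2] at hB2 h21 hne
  have h4ne := add_self_ne_zero_of_pB6 E h2ne hB2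
  obtain ⟨-, hf2⟩ := dbl_formula E h2ne h4ne
  have hx4 : xc E ((P + P) + (P + P)) = xc E P := by
    have : (xc E ((P + P) + (P + P)) - xc E P) * pB6 E.b₂ E.b₄ E.b₆ (xc E (P + P)) = 0 := by
      linear_combination hf2 - h21
    rcases mul_eq_zero.mp this with h | h
    · exact sub_eq_zero.mp h
    · exact absurd h hB2
  rcases eq_or_eq_neg_of_xc_eq E h4ne hP hx4 with h | h
  · -- 4P = P, so 3P = 0, contradiction with ψ₃(x₁) ≠ 0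
    exfalso
    have h3P : 3 • P = 0 := by
      have : (P + P) + (P + P) = P + 0 := by rw [add_zero]; exact h
      have h' : P + (P + P + P) = P + 0 := by rw [← this]; abel
      have := add_left_cancel h'
      rw [← this]; abel
    exact pPsi3_ne_zero_of_pH E hΔ h2 h3 hH (psi3_of_three_nsmul E hP h3P)
  · have : (P + P) + (P + P) + P = 0 := by rw [h]; abel
    rw [← this]; abel

lemma exists_five_torsion [IsAlgClosed F] (hΔ : E.Δ ≠ 0) (h2 : (2 : F) ≠ 0) (h3 : (3 : F) ≠ 0)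
    (h5 : (5 : F) ≠ 0) : ∃ P : E.Point, P ≠ 0 ∧ 5 • P = 0 := by
  obtain ⟨x, hx⟩ := IsAlgClosed.exists_root (k := F) (HPoly E)
      (degree_ne_zero_of_natDegree (natDegree_HPoly E h5) (by norm_num))
  rw [IsRoot, eval_HPoly] at hx
  obtain ⟨P, hP, rfl⟩ := exists_point_of_x E hΔ x
  exact ⟨P, hP, five_nsmul_of_pH E hΔ h2 h3 hP hx⟩

end Field

end Fermat.Agent.S51.H643
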